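import Fermat.Agent.S14.Thaine.RelClass.Basic
import Fermat.Agent.S14.Thaine.CycloU.Eigen

/-!
# Route T, class side of Thaine's relation, leaf A: the residue characteristic of a degree one
prime `P ∌ p` of `ℚ(ζ_p)` is a prime `ℓ ≠ p`, `ℓ ≡ 1 mod p`.

Math: `k = 𝓞 K ⧸ P` is a field with `ℓ = absNorm P` elements; the image of `ζ` satisfies `ζ̄ ^ p = 1`
and `ζ̄ ≠ 1` (because `1 - ζ ∣ p` and `p ∉ P`), so it has order `p` in `kˣ`, whence `p ∣ ℓ - 1`.
-/

set_option autoImplicit false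

namespace Fermat.Agent.S14.Thaine.RelClass

open NumberField IsDedekindDomain
open scoped nonZeroDivisors

theorem absNorm_ne_prime {p : ℕ} [Fact p.Prime]
    (K : Type*) [Field K] [NumberField K] [IsCyclotomicExtension {p} ℚ K]
    (P : Ideal (𝓞 K)) (hpP : ((p : ℕ) : 𝓞 K) ∉ P) :
    Ideal.absNorm P ≠ p := by
  intro h
  apply hpP
  rw [← h]
  exact Ideal.absNorm_mem P

theorem absNorm_mod_prime {p : ℕ} [Fact p.Prime]
    (K : Type*) [Field K] [NumberField K] [IsCyclotomicExtension {p} ℚ K]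
    (P : Ideal (𝓞 K)) (hP : P.IsPrime) (hℓ : (Ideal.absNorm P).Prime)
    (hpP : ((p : ℕ) : 𝓞 K) ∉ P) :
    Ideal.absNorm P % p = 1 := by
  have hpr : p.Prime := Fact.out
  have hne : Ideal.absNorm P ≠ p := absNorm_ne_prime K P hpP
  have hζ := CycloU.EigenAux.zetaInt_isPrimitiveRoot p K
  have : NeZero p := ⟨hpr.ne_zero⟩
  have h0 : IsPrimitiveRoot (Ideal.Quotient.mk P (zetaInt p K)) p :=
    hζ.idealQuotient_mk hℓ.ne_one ((Nat.coprime_primes hℓ hpr).mpr hne)
  have hP0 : P ≠ ⊥ := by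
    rintro rfl
    rw [Ideal.absNorm_bot] at hℓ
    exact Nat.not_prime_zero hℓ
  have hmax : P.IsMaximal := hP.isMaximal hP0
  let _ := Ideal.Quotient.field P
  have : Finite (𝓞 K ⧸ P) := Ideal.finiteQuotientOfFreeOfNeBot P hP0
  let _ := Fintype.ofFinite (𝓞 K ⧸ P)
  have hcard : Fintype.card (𝓞 K ⧸ P) = Ideal.absNorm P := by
    rw [Ideal.absNorm_apply, Submodule.cardQuot_apply, Nat.card_eq_fintype_card]
  have h1 : (Ideal.Quotient.mk P (zetaInt p K)) ^ (Ideal.absNorm P - 1) = 1 := by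
    rw [← hcard]
    exact FiniteField.pow_card_sub_one_eq_one _ (h0.ne_zero hpr.ne_zero)
  obtain ⟨k, hk⟩ := h0.dvd_of_pow_eq_one _ h1
  have h2 : Ideal.absNorm P = p * k + 1 := by
    have := hℓ.two_le
    omega
  rw [h2, Nat.mul_add_mod]
  exact Nat.mod_eq_of_lt hpr.one_lt

end Fermat.Agent.S14.Thaine.RelClass
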