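import Fermat.Agent.S14.Thaine.RelClass.Basic

/-!
# Route T, class side of Thaine's relation, leaf F: from the factorisation of a principal ideal
to a relation in the class group modulo `q`-th powers

Math: `(c) = ∏_v v ^ ord_v(c) = (∏_{v ∈ S} v ^ n_v) * J ^ q` with
`J = ∏_{v ∉ S} v ^ (ord_v(c) / q)`; in the class group `[(c)] = 1`, so
`∏_{v ∈ S} [v] ^ n_v = ([J]⁻¹) ^ q`.
(Compare `Fermat/Agent/S14/Thaine/Glue/IdealRoot.lean` for the use of
`Ideal.finprod_heightOneSpectrum_factorization` and `intValuation_if_neg`.)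
-/

set_option autoImplicit false

namespace Fermat.Agent.S14.Thaine.RelClass

open NumberField IsDedekindDomain
open scoped nonZeroDivisors

theorem prod_mk0_pow_mem_range (F : Type*) [Field F] [NumberField F] (q : ℕ) (hq : 0 < q)
    (c : 𝓞 F) (hc : c ≠ 0) (S : Finset (HeightOneSpectrum (𝓞 F)))
    (n : HeightOneSpectrum (𝓞 F) → ℕ)
    (hS : ∀ v ∈ S, v.intValuation c = WithZero.exp (-(n v : ℤ)))
    (hnS : ∀ v, v ∉ S → ∃ k : ℕ, v.intValuation c = WithZero.exp (-((q : ℤ) * (k : ℤ)))) :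
    ∏ v ∈ S, ClassGroup.mk0 (primeNZD F v) ^ n v ∈
      (powMonoidHom q : ClassGroup (𝓞 F) →* ClassGroup (𝓞 F)).range := by
  classical
  have hJ : (Ideal.span {c} : Ideal (𝓞 F)) ≠ 0 := by
    rw [Ne, Ideal.zero_eq_bot, Ideal.span_singleton_eq_bot]
    exact hc
  -- the exponent of `v` in `(c)`
  set e : HeightOneSpectrum (𝓞 F) → ℕ := fun v =>
    (Associates.mk v.asIdeal).count (Associates.mk (Ideal.span {c} : Ideal (𝓞 F))).factors
    with he
  have heS : ∀ v ∈ S, e v = n v := by
    intro v hv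
    have hk := hS v hv
    rw [v.intValuation_if_neg hc, WithZero.exp_inj, neg_inj] at hk
    exact_mod_cast hk
  have henS : ∀ v, v ∉ S → q * (e v / q) = e v := by
    intro v hv
    obtain ⟨k, hk⟩ := hnS v hv
    rw [v.intValuation_if_neg hc, WithZero.exp_inj, neg_inj] at hk
    have hk' : e v = q * k := by
      have : ((e v : ℕ) : ℤ) = ((q * k : ℕ) : ℤ) := by
        rw [Nat.cast_mul]
        exact hk
      exact_mod_cast this
    rw [hk', Nat.mul_div_cancel_left _ hq]
  -- exponents of the `q`-th root part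
  set g : HeightOneSpectrum (𝓞 F) → ℕ := fun v => if v ∈ S then 0 else e v / q with hg
  have hfin1 : (Function.mulSupport fun v : HeightOneSpectrum (𝓞 F) =>
      if v ∈ S then v.asIdeal ^ n v else (1 : Ideal (𝓞 F))).Finite := by
    refine Set.Finite.subset S.finite_toSet ?_
    intro v hv
    by_contra hvS
    apply hv
    show (if v ∈ S then v.asIdeal ^ n v else (1 : Ideal (𝓞 F))) = 1
    rw [if_neg (by simpa using hvS)]
  have hfin2 : (Function.mulSupport fun v : HeightOneSpectrum (𝓞 F) =>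
      v.asIdeal ^ g v).Finite := by
    refine Set.Finite.subset (Ideal.hasFiniteMulSupport hJ) ?_
    intro v hv hv1
    apply hv
    have h1 : v.asIdeal ^ e v = 1 := hv1
    have h0 : e v = 0 := by
      by_contra hne
      have htop : v.asIdeal = ⊤ := by
        rw [Ideal.one_eq_top] at h1
        exact (Ideal.pow_eq_top_iff.mp h1).resolve_right hne
      exact v.isPrime.ne_top htop
    show v.asIdeal ^ g v = 1
    have hg0 : g v = 0 := by
      rw [hg]
      by_cases hvS : v ∈ S
      · simp [hvS]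
      · simp [hvS, h0]
    rw [hg0, pow_zero]
  have hfin2' : (Function.mulSupport fun v : HeightOneSpectrum (𝓞 F) =>
      (v.asIdeal ^ g v) ^ q).Finite := by
    refine Set.Finite.subset hfin2 ?_
    intro v hv hv1
    apply hv
    have h1 : v.asIdeal ^ g v = 1 := hv1
    show (v.asIdeal ^ g v) ^ q = 1
    rw [h1, one_pow]
  have hprod : Ideal.span {c} =
      (∏ v ∈ S, v.asIdeal ^ n v) *
        (∏ᶠ v : HeightOneSpectrum (𝓞 F), v.asIdeal ^ g v) ^ q := by
    have h1 : (∏ v ∈ S, v.asIdeal ^ n v) =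
        ∏ᶠ v : HeightOneSpectrum (𝓞 F),
          (if v ∈ S then v.asIdeal ^ n v else (1 : Ideal (𝓞 F))) := by
      rw [finprod_eq_prod_of_mulSupport_subset (s := S)]
      · refine Finset.prod_congr rfl fun v hv => ?_
        rw [if_pos hv]
      · intro v hv
        by_contra hvS
        apply hv
        show (if v ∈ S then v.asIdeal ^ n v else (1 : Ideal (𝓞 F))) = 1
        rw [if_neg (by simpa using hvS)]
    rw [h1, finprod_pow hfin2, ← finprod_mul_distrib hfin1 hfin2']
    conv_lhs => rw [← Ideal.finprod_heightOneSpectrum_factorization hJ]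
    refine finprod_congr fun v => ?_
    show v.asIdeal ^ e v = _
    by_cases hvS : v ∈ S
    · rw [if_pos hvS, heS v hvS]
      have hg0 : g v = 0 := by
        rw [hg]
        simp [hvS]
      rw [hg0, pow_zero, one_pow, mul_one]
    · rw [if_neg hvS, one_mul, ← pow_mul]
      have hg1 : g v = e v / q := by
        rw [hg]
        simp [hvS]
      rw [hg1, mul_comm, henS v hvS]
  set J : Ideal (𝓞 F) := ∏ᶠ v : HeightOneSpectrum (𝓞 F), v.asIdeal ^ g v with hJdef
  have hJne : J ≠ 0 := by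
    intro hI
    apply hJ
    rw [hprod, hI, zero_pow hq.ne', mul_zero]
  have hJmem : J ∈ (Ideal (𝓞 F))⁰ := mem_nonZeroDivisors_of_ne_zero hJne
  have hspanmem : (Ideal.span {c} : Ideal (𝓞 F)) ∈ (Ideal (𝓞 F))⁰ :=
    mem_nonZeroDivisors_of_ne_zero hJ
  have hNZD : (⟨Ideal.span {c}, hspanmem⟩ : (Ideal (𝓞 F))⁰) =
      (∏ v ∈ S, primeNZD F v ^ n v) * (⟨J, hJmem⟩ : (Ideal (𝓞 F))⁰) ^ q := by
    apply Subtype.ext
    rw [Submonoid.coe_mul, SubmonoidClass.coe_pow, Submonoid.coe_finsetProd]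
    show Ideal.span {c} = _
    rw [hprod]
    congr 1
  have hone : ClassGroup.mk0 (⟨Ideal.span {c}, hspanmem⟩ : (Ideal (𝓞 F))⁰) = 1 := by
    rw [ClassGroup.mk0_eq_one_iff]
    exact ⟨⟨c, rfl⟩⟩
  rw [hNZD, map_mul, map_prod, map_pow] at hone
  refine ⟨(ClassGroup.mk0 (⟨J, hJmem⟩ : (Ideal (𝓞 F))⁰))⁻¹, ?_⟩
  rw [powMonoidHom_apply, inv_pow]
  symm
  rw [eq_inv_iff_mul_eq_one]
  rw [← hone]
  congr 1
  refine Finset.prod_congr rfl fun v _ => ?_
  rw [map_pow]

end Fermat.Agent.S14.Thaine.RelClass
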