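import Fermat.Agent.S14.Thaine.RelClass.Arith

/-!
# Route T, class side of Thaine's relation, leaf I: the conjugates `σ⁻¹(P)` of a degree one prime
`P ∌ p` of `ℚ(ζ_p)` are pairwise distinct

Math: `ℓ = N P ≡ 1 mod p`, so by Mathlib's
`IsCyclotomicExtension.Rat.mem_zpowers_galEquivZMod_of_mem_stabilizer` the image under
`galEquivZMod` of the decomposition group of `P` lies in the subgroup of `(ZMod p)ˣ` generated by
`ℓ = 1`, i.e. the decomposition group is trivial.  Hence `σ⁻¹ P = τ⁻¹ P` forces `τ σ⁻¹ = 1`.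
-/

set_option autoImplicit false

namespace Fermat.Agent.S14.Thaine.RelClass

open NumberField IsDedekindDomain
open scoped nonZeroDivisors Pointwise

theorem conjPrime_injective {p : ℕ} [Fact p.Prime]
    (K : Type*) [Field K] [NumberField K] [IsCyclotomicExtension {p} ℚ K]
    (P : (Ideal (𝓞 K))⁰) (hP : (P : Ideal (𝓞 K)).IsPrime)
    (hℓ : (Ideal.absNorm (P : Ideal (𝓞 K))).Prime)
    (hpP : ((p : ℕ) : 𝓞 K) ∉ (P : Ideal (𝓞 K))) :
    Function.Injective (conjPrime K P hP) := by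
  intro σ τ h
  have hpr : p.Prime := Fact.out
  have : Fact (Ideal.absNorm (P : Ideal (𝓞 K))).Prime := ⟨hℓ⟩
  have : NeZero p := ⟨hpr.ne_zero⟩
  have hmax : (P : Ideal (𝓞 K)).IsMaximal := hP.isMaximal (nonZeroDivisors.coe_ne_zero P)
  have hℓ' : Prime ((Ideal.absNorm (P : Ideal (𝓞 K)) : ℕ) : ℤ) := Nat.prime_iff_prime_int.mp hℓ
  have hlo : (P : Ideal (𝓞 K)).LiesOver
      (Ideal.span {((Ideal.absNorm (P : Ideal (𝓞 K)) : ℕ) : ℤ)}) :=
    (Ideal.liesOver_span_iff hP.ne_top hℓ').mpr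
      (by simpa using Ideal.absNorm_mem (P : Ideal (𝓞 K)))
  have hne : Ideal.absNorm (P : Ideal (𝓞 K)) ≠ p := absNorm_ne_prime K _ hpP
  have hcop : (Ideal.absNorm (P : Ideal (𝓞 K))).Coprime p := (Nat.coprime_primes hℓ hpr).mpr hne
  have hmod : Ideal.absNorm (P : Ideal (𝓞 K)) % p = 1 := absNorm_mod_prime K _ hP hℓ hpP
  -- the decomposition group is trivial
  have hstab : ∀ ρ : K ≃ₐ[ℚ] K, ρ • (P : Ideal (𝓞 K)) = P → ρ = 1 := by
    intro ρ hρ
    have hmem : ρ ∈ MulAction.stabilizer (K ≃ₐ[ℚ] K) (P : Ideal (𝓞 K)) := hρ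
    have h1 := IsCyclotomicExtension.Rat.mem_zpowers_galEquivZMod_of_mem_stabilizer p K
      (Ideal.absNorm (P : Ideal (𝓞 K))) (P : Ideal (𝓞 K)) hcop hmem
    have hunit : ZMod.unitOfCoprime (Ideal.absNorm (P : Ideal (𝓞 K))) hcop = 1 := by
      apply Units.ext
      rw [ZMod.coe_unitOfCoprime, Units.val_one]
      have h2 : ((Ideal.absNorm (P : Ideal (𝓞 K)) : ℕ) : ZMod p) = ((1 : ℕ) : ZMod p) := by
        rw [ZMod.natCast_eq_natCast_iff']
        rw [hmod, Nat.mod_eq_of_lt hpr.one_lt]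
      simpa using h2
    rw [hunit, Subgroup.zpowers_one_eq_bot, Subgroup.mem_bot] at h1
    exact (MulEquiv.map_eq_one_iff _).mp h1
  have h' : (σ⁻¹ : K ≃ₐ[ℚ] K) • (P : Ideal (𝓞 K)) = (τ⁻¹ : K ≃ₐ[ℚ] K) • (P : Ideal (𝓞 K)) :=
    congrArg HeightOneSpectrum.asIdeal h
  have h3 : (τ * σ⁻¹) • (P : Ideal (𝓞 K)) = P := by
    rw [mul_smul, h', smul_inv_smul]
  have h4 := hstab _ h3
  exact (mul_inv_eq_one.mp h4).symm

end Fermat.Agent.S14.Thaine.RelClass
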