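import Fermat.Agent.S14.Thaine.RelClass.Basic
import Fermat.Agent.S14.Thaine.CycloU.Eigen

/-!
# Route T, class side of Thaine's relation, leaf L: the local congruence

Math: `k = 𝓞 K ⧸ P` is a field, `ū = ḡ ^ n` is not a `p`-th power in `k` (goodness).  Hence
`p ∤ n` and `ḡ ≠ 0`.  If `u ≡ g ^ m mod σ⁻¹(P)` then `σ u ≡ g ^ m mod P`; by
`CycloU.thaineU_eigen`, `σ u * S ^ p = u ^ (sqExp σ) * T ^ p` with `S, T` dividing a power of `p`
(so `S̄, T̄ ≠ 0` in `k`).  Thus `ḡ ^ m * S̄ ^ p = ḡ ^ (sqExp σ * n) * T̄ ^ p`, so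
`ḡ ^ (m - sqExp σ * n)` is a `p`-th power in `kˣ`; if `p ∤ m - sqExp σ * n`, Bézout would make
`ḡ`, hence `ū`, a `p`-th power.
-/

set_option autoImplicit false

namespace Fermat.Agent.S14.Thaine.RelClass

open NumberField IsDedekindDomain
open scoped nonZeroDivisors

/-- Pure field algebra: if `γ ^ m * s ^ p = γ ^ e * t ^ p` with `γ, t ≠ 0` and `γ` is not a
`p`-th power, then `m ≡ e [MOD p]`. -/
theorem local_field_aux {k : Type*} [Field k] (p : ℕ) (hp : p.Prime) (γ s t : k)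
    (hγ : γ ≠ 0) (ht : t ≠ 0) (m e : ℕ)
    (h : γ ^ m * s ^ p = γ ^ e * t ^ p) (hγp : ¬ ∃ y : k, y ^ p = γ) : m ≡ e [MOD p] := by
  rw [Nat.modEq_iff_dvd]
  by_contra hnd
  apply hγp
  have hcop : IsCoprime (p : ℤ) ((e : ℤ) - m) :=
    (Nat.prime_iff_prime_int.mp hp).coprime_iff_not_dvd.mpr hnd
  obtain ⟨a, b, hab⟩ := hcop
  have hd : γ ^ ((e : ℤ) - m) = (s / t) ^ p := by
    rw [zpow_sub₀ hγ, zpow_natCast, zpow_natCast, div_pow,
      div_eq_div_iff (pow_ne_zero _ hγ) (pow_ne_zero _ ht)]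
    rw [mul_comm (s ^ p)]
    exact h.symm
  refine ⟨γ ^ a * (s / t) ^ b, ?_⟩
  have h1 : (γ ^ a) ^ p = γ ^ (a * (p : ℤ)) := by
    rw [zpow_mul, zpow_natCast]
  have h2 : ((s / t) ^ b) ^ p = γ ^ (b * ((e : ℤ) - m)) := by
    rw [mul_comm, zpow_mul, hd, ← zpow_natCast ((s / t) ^ b) p, ← zpow_mul, mul_comm, zpow_mul,
      zpow_natCast]
  rw [mul_pow, h1, h2, ← zpow_add₀ hγ, hab, zpow_one]

theorem local_not_dvd {p : ℕ} [Fact p.Prime]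
    (K : Type*) [Field K] [NumberField K] [IsCyclotomicExtension {p} ℚ K]
    (P : (Ideal (𝓞 K))⁰) (hP : IsGoodPrime K p (thaineU p K) (P : Ideal (𝓞 K)))
    (g : ℤ) (n : ℕ) (hn : thaineU p K - (g : 𝓞 K) ^ n ∈ (P : Ideal (𝓞 K))) :
    ¬ p ∣ n := by
  rintro ⟨t, rfl⟩
  apply hP.2.2.2
  refine ⟨(g : 𝓞 K) ^ t, ?_⟩
  have h : ((g : 𝓞 K) ^ t) ^ p - thaineU p K = -(thaineU p K - (g : 𝓞 K) ^ (p * t)) := by
    rw [pow_mul']
    ring
  rw [h]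
  exact neg_mem hn

theorem local_modEq {p : ℕ} [Fact p.Prime]
    (K : Type*) [Field K] [NumberField K] [IsCyclotomicExtension {p} ℚ K]
    (P : (Ideal (𝓞 K))⁰) (hP : IsGoodPrime K p (thaineU p K) (P : Ideal (𝓞 K)))
    (g : ℤ) (σ : K ≃ₐ[ℚ] K) (n m : ℕ)
    (hn : thaineU p K - (g : 𝓞 K) ^ n ∈ (P : Ideal (𝓞 K)))
    (hm : thaineU p K - (g : 𝓞 K) ^ m ∈ (conjPrime K P hP.1 σ).asIdeal) :
    m ≡ sqExp p K σ * n [MOD p] := by
  have hp : p.Prime := Fact.out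
  have hPmax : (P : Ideal (𝓞 K)).IsMaximal :=
    Ideal.IsPrime.isMaximal hP.1 (nonZeroDivisors.coe_ne_zero P)
  let _ : Field (𝓞 K ⧸ (P : Ideal (𝓞 K))) := Ideal.Quotient.field _
  -- `ū = ḡ ^ n`
  have hu : Ideal.Quotient.mk (P : Ideal (𝓞 K)) (thaineU p K) =
      (Ideal.Quotient.mk (P : Ideal (𝓞 K)) (g : 𝓞 K)) ^ n := by
    rw [← map_pow]
    exact Ideal.Quotient.eq.mpr hn
  -- `ū` is not a `p`-th power
  have hnotpow : ¬ ∃ y : 𝓞 K ⧸ (P : Ideal (𝓞 K)),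
      y ^ p = Ideal.Quotient.mk (P : Ideal (𝓞 K)) (thaineU p K) := by
    rintro ⟨y, hy⟩
    obtain ⟨x, rfl⟩ := Ideal.Quotient.mk_surjective y
    apply hP.2.2.2
    refine ⟨x, ?_⟩
    rw [← Ideal.Quotient.eq, map_pow]
    exact hy
  -- `ḡ` is not a `p`-th power
  have hγp : ¬ ∃ y : 𝓞 K ⧸ (P : Ideal (𝓞 K)),
      y ^ p = Ideal.Quotient.mk (P : Ideal (𝓞 K)) (g : 𝓞 K) := by
    rintro ⟨y, hy⟩
    apply hnotpow
    refine ⟨y ^ n, ?_⟩
    rw [hu, ← hy, ← pow_mul, ← pow_mul, mul_comm]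
  -- `ḡ ≠ 0`
  have hγ : Ideal.Quotient.mk (P : Ideal (𝓞 K)) (g : 𝓞 K) ≠ 0 := by
    intro h0
    apply hγp
    refine ⟨0, ?_⟩
    rw [h0, zero_pow hp.ne_zero]
  -- `p̄ ≠ 0`
  have hpbar : Ideal.Quotient.mk (P : Ideal (𝓞 K)) ((p : ℕ) : 𝓞 K) ≠ 0 := by
    intro h0
    exact hP.2.2.1 (Ideal.Quotient.eq_zero_iff_mem.mp h0)
  -- `σ u ≡ g ^ m mod P`
  have hσu : Ideal.Quotient.mk (P : Ideal (𝓞 K))
      (RingOfIntegers.mapRingEquiv (σ : K ≃+* K) (thaineU p K)) =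
      (Ideal.Quotient.mk (P : Ideal (𝓞 K)) (g : 𝓞 K)) ^ m := by
    have h1 := (mem_conjPrime_iff K P hP.1 σ _).mp hm
    rw [map_sub, map_pow, map_intCast] at h1
    rw [← map_pow]
    exact Ideal.Quotient.eq.mpr h1
  -- the eigen-relation
  obtain ⟨S, T, -, ⟨b, hT⟩, hST⟩ := CycloU.thaineU_eigen (p := p) K σ
  have hST' : RingOfIntegers.mapRingEquiv (σ : K ≃+* K) (thaineU p K) * S ^ p =
      thaineU p K ^ sqExp p K σ * T ^ p := by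
    apply RingOfIntegers.coe_injective
    push_cast
    exact hST
  have hTbar : Ideal.Quotient.mk (P : Ideal (𝓞 K)) T ≠ 0 := by
    intro h0
    obtain ⟨c, hc⟩ := hT
    have h2 := congrArg (Ideal.Quotient.mk (P : Ideal (𝓞 K))) hc
    rw [map_pow, map_mul, h0, zero_mul] at h2
    exact pow_ne_zero b hpbar h2
  have hrel := congrArg (Ideal.Quotient.mk (P : Ideal (𝓞 K))) hST'
  rw [map_mul, map_mul, map_pow, map_pow, map_pow, hσu, hu, ← pow_mul] at hrel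
  have := local_field_aux p hp _ _ _ hγ hTbar m (n * sqExp p K σ) hrel hγp
  rwa [mul_comm] at this

end Fermat.Agent.S14.Thaine.RelClass
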