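import Fermat.Agent.S14.Thaine.RelClass.Basic

/-!
# Route T, class side of Thaine's relation, leaf T: the primes above `ℓ` are the conjugates of `P`

Math: `Gal(K/ℚ)` acts transitively on the primes of `𝓞 K` above a rational prime
(`Algebra.IsInvariant.exists_smul_of_under_eq ℤ (𝓞 K) (K ≃ₐ[ℚ] K)`; note that
`(sigmaIdeal K σ I : Ideal (𝓞 K)) = σ • (I : Ideal (𝓞 K))` holds by `rfl` with
`open scoped Pointwise`).
-/

set_option autoImplicit false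

namespace Fermat.Agent.S14.Thaine.RelClass

open NumberField IsDedekindDomain
open scoped nonZeroDivisors Pointwise

/-- A rational integer lying in `P` lies in every conjugate of `P`. -/
theorem natCast_mem_conjPrime (K : Type*) [Field K] [NumberField K] (P : (Ideal (𝓞 K))⁰)
    (hP : (P : Ideal (𝓞 K)).IsPrime) (ℓ : ℕ) (hℓP : ((ℓ : ℕ) : 𝓞 K) ∈ (P : Ideal (𝓞 K)))
    (σ : K ≃ₐ[ℚ] K) : ((ℓ : ℕ) : 𝓞 K) ∈ (conjPrime K P hP σ).asIdeal := by
  rw [mem_conjPrime_iff, map_natCast]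
  exact hℓP

/-- Every prime of `𝓞 K` containing the prime number `ℓ ∈ P` is a conjugate of `P`. -/
theorem exists_conjPrime_eq (K : Type*) [Field K] [NumberField K] [IsGalois ℚ K]
    (P : (Ideal (𝓞 K))⁰) (hP : (P : Ideal (𝓞 K)).IsPrime) (ℓ : ℕ) (hℓ : ℓ.Prime)
    (hℓP : ((ℓ : ℕ) : 𝓞 K) ∈ (P : Ideal (𝓞 K)))
    (v : HeightOneSpectrum (𝓞 K)) (hv : ((ℓ : ℕ) : 𝓞 K) ∈ v.asIdeal) :
    ∃ σ : K ≃ₐ[ℚ] K, conjPrime K P hP σ = v := by
  have hvprime : v.asIdeal.IsPrime := v.isPrime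
  have hℓ' : Prime (ℓ : ℤ) := Nat.prime_iff_prime_int.mp hℓ
  have h1 : (P : Ideal (𝓞 K)).LiesOver (Ideal.span {(ℓ : ℤ)}) :=
    (Ideal.liesOver_span_iff hP.ne_top hℓ').mpr (by simpa using hℓP)
  have h2 : v.asIdeal.LiesOver (Ideal.span {(ℓ : ℤ)}) :=
    (Ideal.liesOver_span_iff hvprime.ne_top hℓ').mpr (by simpa using hv)
  have hunder : (P : Ideal (𝓞 K)).under ℤ = v.asIdeal.under ℤ := by
    rw [← h1.over, ← h2.over]
  obtain ⟨g, hg⟩ := Algebra.IsInvariant.exists_smul_of_under_eq ℤ (𝓞 K) (K ≃ₐ[ℚ] K)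
    (P : Ideal (𝓞 K)) v.asIdeal hunder
  refine ⟨g⁻¹, ?_⟩
  apply HeightOneSpectrum.ext
  rw [conjPrime_asIdeal, inv_inv, hg]
  rfl

end Fermat.Agent.S14.Thaine.RelClass
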