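import Fermat.Agent.S14.Thaine.ClSigma

/-!
# Route T, class side of Thaine's relation (owner helper9): basic definitions and group lemmas

* `conjPrime K P hP σ` : the prime `σ⁻¹(P)` as an element of `HeightOneSpectrum (𝓞 K)`.
* `mem_range_pow_of_pow_mem`, `prod_pow_mem_range_of_modEq` : elementary facts on the subgroup of
  `p`-th powers of a commutative group.
-/

set_option autoImplicit false

namespace Fermat.Agent.S14.Thaine.RelClass

open NumberField IsDedekindDomain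
open scoped nonZeroDivisors

/-- The prime `σ⁻¹(P)` as an element of the height one spectrum. -/
noncomputable def conjPrime (K : Type*) [Field K] [NumberField K] (P : (Ideal (𝓞 K))⁰)
    (hP : (P : Ideal (𝓞 K)).IsPrime) (σ : K ≃ₐ[ℚ] K) : HeightOneSpectrum (𝓞 K) :=
  ⟨(sigmaIdeal K σ⁻¹ P : Ideal (𝓞 K)), by
    rw [coe_sigmaIdeal]
    exact Ideal.map_isPrime_of_equiv (RingOfIntegers.mapRingEquiv ((σ⁻¹ : K ≃ₐ[ℚ] K) : K ≃+* K)),
    nonZeroDivisors.coe_ne_zero (sigmaIdeal K σ⁻¹ P)⟩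

theorem conjPrime_asIdeal (K : Type*) [Field K] [NumberField K] (P : (Ideal (𝓞 K))⁰)
    (hP : (P : Ideal (𝓞 K)).IsPrime) (σ : K ≃ₐ[ℚ] K) :
    (conjPrime K P hP σ).asIdeal = (sigmaIdeal K σ⁻¹ P : Ideal (𝓞 K)) := rfl

theorem primeNZD_conjPrime (K : Type*) [Field K] [NumberField K] (P : (Ideal (𝓞 K))⁰)
    (hP : (P : Ideal (𝓞 K)).IsPrime) (σ : K ≃ₐ[ℚ] K) :
    primeNZD K (conjPrime K P hP σ) = sigmaIdeal K σ⁻¹ P := Subtype.ext rfl

/-- `x ∈ σ⁻¹(P) ↔ σ x ∈ P`. -/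
theorem mem_conjPrime_iff (K : Type*) [Field K] [NumberField K] (P : (Ideal (𝓞 K))⁰)
    (hP : (P : Ideal (𝓞 K)).IsPrime) (σ : K ≃ₐ[ℚ] K) (x : 𝓞 K) :
    x ∈ (conjPrime K P hP σ).asIdeal ↔
      RingOfIntegers.mapRingEquiv (σ : K ≃+* K) x ∈ (P : Ideal (𝓞 K)) := by
  rw [conjPrime_asIdeal, mem_sigmaIdeal_iff]
  rfl

/-- In a commutative group, if `x ^ n` is a `p`-th power and `p ∤ n`, then `x` is a `p`-th power. -/
theorem mem_range_pow_of_pow_mem {A : Type*} [CommGroup A] (p : ℕ) (hp : p.Prime) (x : A) (n : ℕ)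
    (hn : ¬ p ∣ n) (h : x ^ n ∈ (powMonoidHom p : A →* A).range) :
    x ∈ (powMonoidHom p : A →* A).range := by
  obtain ⟨y, hy⟩ := h
  have hy' : y ^ p = x ^ n := hy
  have hcop : Nat.Coprime p n := (Nat.Prime.coprime_iff_not_dvd hp).mpr hn
  have hb : ((Nat.gcd p n : ℕ) : ℤ) = p * Nat.gcdA p n + n * Nat.gcdB p n := Nat.gcd_eq_gcd_ab p n
  rw [hcop] at hb
  refine ⟨x ^ (Nat.gcdA p n) * y ^ (Nat.gcdB p n), ?_⟩
  show (x ^ (Nat.gcdA p n) * y ^ (Nat.gcdB p n)) ^ p = x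
  have h1 : (x ^ (Nat.gcdA p n)) ^ p = x ^ ((p : ℤ) * Nat.gcdA p n) := by
    rw [← zpow_natCast (x ^ (Nat.gcdA p n)) p, ← zpow_mul, mul_comm]
  have h2 : (y ^ (Nat.gcdB p n)) ^ p = x ^ ((n : ℤ) * Nat.gcdB p n) := by
    rw [← zpow_natCast (y ^ (Nat.gcdB p n)) p, ← zpow_mul, mul_comm, zpow_mul, zpow_natCast y p, hy',
      ← zpow_natCast x n, ← zpow_mul]
  rw [mul_pow, h1, h2, ← zpow_add, ← hb]
  simp

/-- Changing the exponents modulo `p` does not change a product modulo `p`-th powers. -/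
theorem prod_pow_mem_range_of_modEq {A ι : Type*} [CommGroup A] (p : ℕ) (s : Finset ι) (x : ι → A)
    (a b : ι → ℕ) (hab : ∀ i ∈ s, a i ≡ b i [MOD p])
    (h : ∏ i ∈ s, x i ^ a i ∈ (powMonoidHom p : A →* A).range) :
    ∏ i ∈ s, x i ^ b i ∈ (powMonoidHom p : A →* A).range := by
  have key : ∀ i ∈ s, x i ^ b i * (x i ^ a i)⁻¹ ∈ (powMonoidHom p : A →* A).range := by
    intro i hi
    have h1 : (a i : ℤ) ≡ (b i : ℤ) [ZMOD (p : ℤ)] := Int.natCast_modEq_iff.mpr (hab i hi)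
    obtain ⟨k, hk⟩ := h1.dvd
    refine ⟨x i ^ k, ?_⟩
    show (x i ^ k) ^ p = x i ^ b i * (x i ^ a i)⁻¹
    rw [← zpow_natCast (x i ^ k) p, ← zpow_mul, mul_comm, ← hk, zpow_sub, zpow_natCast,
      zpow_natCast]
  have h2 : ∏ i ∈ s, x i ^ b i = (∏ i ∈ s, x i ^ a i) * ∏ i ∈ s, (x i ^ b i * (x i ^ a i)⁻¹) := by
    rw [← Finset.prod_mul_distrib]
    refine Finset.prod_congr rfl fun i _ => ?_
    rw [mul_comm (x i ^ b i), mul_inv_cancel_left]
  rw [h2]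
  exact mul_mem h (Subgroup.prod_mem _ key)

end Fermat.Agent.S14.Thaine.RelClass
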